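import Fermat.Agent.S41.Neat.KV
import Fermat.Agent.MR.Glue.Lvl

/-!
# S41 / NEAT : reduction to neat levels  (CONTRACT + proof)

`V(M) = KV Kbar (FN M) p`.  For `q' ∤ N` prime and `p` odd there is a neat level `N' = N c` (`4 ∣ N'` or `9 ∣ N'`), prime to `q'`,
such that the pull-back `V(N) → V(N')` is injective on every `G_ℚ`-stable irreducible non cyclic subgroup `W` of `V(N)`:
the kernel is `G_ℚ`-stable and, by Kummer theory, two independent classes in the kernel would give `p² ∣ [F(N') : F(N)] ∈ {1,3,4,6,12}`.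

* `neat` : the export;
* `lvlKV_pull_alpha`, `lvlKV_pull_beta` : the pull-back commutes with the two degeneracy maps `α_q^*`, `β_q^*`;
  (Galois: `DR.Gal.lvlKV_galois`; Hecke: `MR.Glue.lvlKV_heckeT`).
-/

set_option autoImplicit false

noncomputable section

namespace Fermat.Agent.S41.Neat

open AlgebraicCurve ModularCurve Fermat.Agent.S24 Fermat.Agent.GAL Fermat.Agent.GAL.Hecke
  Fermat.Agent.DR.Gal Fermat.Agent.Lib.Gamma0Count

/-- the choice of the multiplier `c`. -/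
theorem exists_neat_mul {N q' p : ℕ} (hN : N ≠ 0) (hq' : q'.Prime) (hq'N : ¬ q' ∣ N) (hp : p.Prime)
    (hp2 : p ≠ 2) :
    ∃ c d : ℕ, c ≠ 0 ∧ (4 ∣ N * c ∨ 9 ∣ N * c) ∧ ¬ q' ∣ N * c ∧
      dedekindPsi (N * c) = dedekindPsi N * d ∧ ¬ p ^ 2 ∣ d := by
  have hp3 : 3 ≤ p := by
    have := hp.two_le
    omega
  have hpp : 9 ≤ p ^ 2 := by nlinarith
  have hsmall : ∀ d, 0 < d → d < 9 → ¬ p ^ 2 ∣ d := fun d h0 h9 h => by
    have := Nat.le_of_dvd h0 h
    omega
  by_cases h2 : q' = 2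
  · subst h2
    by_cases h3 : 3 ∣ N
    · by_cases h9 : 9 ∣ N
      · exact ⟨1, 1, one_ne_zero, Or.inr (by simpa using h9), by simpa using hq'N, by simp,
          hsmall 1 (by norm_num) (by norm_num)⟩
      · refine ⟨3, 3, by norm_num, Or.inr ?_, ?_, ?_, hsmall 3 (by norm_num) (by norm_num)⟩
        · obtain ⟨k, rfl⟩ := h3
          exact ⟨k, by ring⟩
        · intro h
          rcases (Nat.Prime.dvd_mul Nat.prime_two).1 h with h | h
          · exact hq'N h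
          · omega
        · rw [mul_comm N 3, dedekindPsi_prime_mul_of_dvd Nat.prime_three hN h3, mul_comm]
    · refine ⟨9, 12, by norm_num, Or.inr (dvd_mul_left 9 N), ?_, ?_, ?_⟩
      · intro h
        rcases (Nat.Prime.dvd_mul Nat.prime_two).1 h with h | h
        · exact hq'N h
        · omega
      · have e : N * 9 = 3 * (3 * N) := by ring
        rw [e, dedekindPsi_prime_mul_of_dvd Nat.prime_three (mul_ne_zero (by norm_num) hN)
          (dvd_mul_right 3 N), dedekindPsi_prime_mul_of_not_dvd Nat.prime_three hN h3]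
        ring
      · intro h
        have h12 := Nat.le_of_dvd (by norm_num) h
        have hp4 : p < 4 := by nlinarith
        have hp3' : p = 3 := by omega
        subst hp3'
        omega
  · have hq4 : ¬ q' ∣ N * 4 := by
      intro h
      rcases (Nat.Prime.dvd_mul hq').1 h with h | h
      · exact hq'N h
      · have h4 : q' ∣ 2 ^ 2 := by norm_num; exact h
        exact h2 ((Nat.prime_dvd_prime_iff_eq hq' Nat.prime_two).1 (hq'.dvd_of_dvd_pow h4))
    have e : N * 4 = 2 * (2 * N) := by ring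
    by_cases hN2 : 2 ∣ N
    · refine ⟨4, 4, by norm_num, Or.inl (dvd_mul_left 4 N), hq4, ?_,
        hsmall 4 (by norm_num) (by norm_num)⟩
      rw [e, dedekindPsi_prime_mul_of_dvd Nat.prime_two (mul_ne_zero (by norm_num) hN)
        (dvd_mul_right 2 N), dedekindPsi_prime_mul_of_dvd Nat.prime_two hN hN2]
      ring
    · refine ⟨4, 6, by norm_num, Or.inl (dvd_mul_left 4 N), hq4, ?_,
        hsmall 6 (by norm_num) (by norm_num)⟩
      rw [e, dedekindPsi_prime_mul_of_dvd Nat.prime_two (mul_ne_zero (by norm_num) hN)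
        (dvd_mul_right 2 N), dedekindPsi_prime_mul_of_not_dvd Nat.prime_two hN hN2]
      ring

/-- injectivity of the pull-back on irreducible non cyclic Galois submodules, if `p² ∤ [F(N') : F(N)]`. -/
theorem eq_zero_of_lvlKV_eq_zero {N N' p : ℕ} [NeZero N] [NeZero N'] (h : N ∣ N') (hp : p.Prime)
    (hdeg : ¬ p ^ 2 ∣ finrankAlong Kbar (lvl h)) (W : AddSubgroup (KV Kbar (FN N) p))
    (hW : ∀ σ : Kbar ≃ₐ[ℚ] Kbar, ∀ x ∈ W, σ • x ∈ W)
    (hirr : ∀ W' : AddSubgroup (KV Kbar (FN N) p), W' ≤ W →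
      (∀ σ : Kbar ≃ₐ[ℚ] Kbar, ∀ x ∈ W', σ • x ∈ W') → W' = ⊥ ∨ W' = W)
    (hcyc : ∀ x, W ≠ AddSubgroup.zmultiples x) :
    ∀ x ∈ W, lvlKV h p x = 0 → x = 0 := by
  have : NeZero p := ⟨hp.ne_zero⟩
  obtain ⟨ζ, hζ⟩ : ∃ ζ : Kbar, IsPrimitiveRoot ζ p :=
    HasEnoughRootsOfUnity.exists_primitiveRoot Kbar p
  refine inf_eq_bot_of_irreducible (G := Kbar ≃ₐ[ℚ] Kbar) (lvlKV h p).ker W ?_ hW hirr hcyc ?_
  · intro σ x hx
    rw [AddMonoidHom.mem_ker] at hx ⊢
    rw [lvlKV_galois, hx, smul_zero]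
  · intro x hx y hy hx0
    by_contra hcon
    push Not at hcon
    exact hdeg (sq_dvd_finrankAlong (lvl h) (integral_lvl h) hp hζ hx hy hx0 hcon)

/-- **EXPORT (NEAT).** -/
theorem neat {N q' p : ℕ} [NeZero N] (hq' : q'.Prime) (hq'N : ¬ q' ∣ N) (hp : p.Prime)
    (hp2 : p ≠ 2) :
    ∃ (N' : ℕ) (_ : NeZero N') (h : N ∣ N'), (4 ∣ N' ∨ 9 ∣ N') ∧ ¬ q' ∣ N' ∧
      ∀ W : AddSubgroup (KV Kbar (FN N) p), (∀ σ : Kbar ≃ₐ[ℚ] Kbar, ∀ x ∈ W, σ • x ∈ W) →
        (∀ W' : AddSubgroup (KV Kbar (FN N) p), W' ≤ W →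
          (∀ σ : Kbar ≃ₐ[ℚ] Kbar, ∀ x ∈ W', σ • x ∈ W') → W' = ⊥ ∨ W' = W) →
        (∀ x, W ≠ AddSubgroup.zmultiples x) →
        ∀ x ∈ W, lvlKV h p x = 0 → x = 0 := by
  obtain ⟨c, d, hc, hneat, hq, hψ, hd⟩ := exists_neat_mul (NeZero.ne N) hq' hq'N hp hp2
  have hne : NeZero (N * c) := ⟨mul_ne_zero (NeZero.ne N) hc⟩
  refine ⟨N * c, hne, dvd_mul_right N c, hneat, hq, fun W hW hirr hcyc => ?_⟩
  refine eq_zero_of_lvlKV_eq_zero (dvd_mul_right N c) hp ?_ W hW hirr hcyc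
  have h1 := MR.Glue.finrankAlong_lvl_mul (dvd_mul_right N c)
  rw [hψ] at h1
  rw [Nat.eq_of_mul_eq_mul_left (GAL.DegreeAlpha.dedekindPsi_pos N) h1]
  exact hd

/-! ### commutation with the degeneracy maps -/

section Comm

variable {N N' : ℕ} [NeZero N] [NeZero N'] (h : N ∣ N') (q : ℕ) [NeZero q] (m : ℕ)

theorem lvlKV_pull_alpha (hα : (heckeAlphaBar Kbar N q).toRingHom.IsIntegral)
    (hα' : (heckeAlphaBar Kbar N' q).toRingHom.IsIntegral) (x : KV Kbar (FN N) m) :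
    lvlKV (Nat.mul_dvd_mul_right h q) m (pullKV (heckeAlphaBar Kbar N q) hα m x) =
      pullKV (heckeAlphaBar Kbar N' q) hα' m (lvlKV h m x) := by
  obtain ⟨u, rfl⟩ := KV.mk_surjective x
  rw [pullKV_mk, lvlKV_mk, lvlKV_mk, pullKV_mk]
  exact congrArg KV.mk (Subtype.ext (Units.ext (lvl_alpha h _)))

theorem lvlKV_pull_beta (hβ : (heckeBetaBar Kbar N q).toRingHom.IsIntegral)
    (hβ' : (heckeBetaBar Kbar N' q).toRingHom.IsIntegral) (x : KV Kbar (FN N) m) :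
    lvlKV (Nat.mul_dvd_mul_right h q) m (pullKV (heckeBetaBar Kbar N q) hβ m x) =
      pullKV (heckeBetaBar Kbar N' q) hβ' m (lvlKV h m x) := by
  obtain ⟨u, rfl⟩ := KV.mk_surjective x
  rw [pullKV_mk, lvlKV_mk, lvlKV_mk, pullKV_mk]
  exact congrArg KV.mk (Subtype.ext (Units.ext (lvl_beta h _)))

end Comm

end Fermat.Agent.S41.Neat
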