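import Fermat.Agent.S41.Neat.Kummer
import Fermat.Agent.DR.Gal.Level

/-!
# S41 / NEAT : the kernel of a pull-back `V_p(F) → V_p(F')` (Kummer model)
-/

set_option autoImplicit false
set_option linter.style.haveILetI false

noncomputable section

namespace Fermat.Agent.S41.Neat

open AlgebraicCurve ModularCurve Fermat.Agent.GAL Fermat.Agent.DR.Gal

section Abstract

variable {K F F' : Type*} [Field K] [Field F] [Field F'] [Algebra K F] [Algebra K F']

/-- **(N1)** two independent classes in the kernel of the pull-back force `p² ∣ [F' : F]`. -/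
theorem sq_dvd_finrankAlong (φ : F →ₐ[K] F') (hφ : φ.toRingHom.IsIntegral) {p : ℕ} (hp : p.Prime)
    {ζ : K} (hζ : IsPrimitiveRoot ζ p) {x y : KV K F p} (hx : pullKV φ hφ p x = 0)
    (hy : pullKV φ hφ p y = 0) (hx0 : x ≠ 0) (hy0 : ∀ j : ℕ, y + j • x ≠ 0) :
    p ^ 2 ∣ finrankAlong K φ := by
  obtain ⟨u, rfl⟩ := KV.mk_surjective x
  obtain ⟨w, rfl⟩ := KV.mk_surjective y
  rw [pullKV_mk, KV.mk_eq_zero_iff] at hx hy
  obtain ⟨v₁, h₁⟩ := hx
  obtain ⟨v₂, h₂⟩ := hy
  letI := algebraAlong φ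
  have key : ∀ (b : F) (t : kummerUnits K F p), b ^ p = ((t : Fˣ) : F) → KV.mk t = 0 := by
    intro b t hb
    have hb0 : b ≠ 0 := by
      rintro rfl
      rw [zero_pow hp.ne_zero] at hb
      exact (t : Fˣ).ne_zero hb.symm
    rw [KV.mk_eq_zero_iff]
    exact ⟨Units.mk0 b hb0, Units.ext hb⟩
  refine Kummer_sq_dvd_finrank (F := F) (F' := F') hp
    (hζ.map_of_injective (algebraMap K F).injective) (u₁ := ((u : Fˣ) : F)) (u₂ := ((w : Fˣ) : F))
    (v₁ := (v₁ : F')) (v₂ := (v₂ : F')) ?_ ?_ ?_ ?_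
  · exact congrArg Units.val h₁
  · exact congrArg Units.val h₂
  · intro b hb
    exact hx0 (key b u hb)
  · intro j b hb
    apply hy0 j
    rw [← KV.mk_pow, ← KV.mk_mul]
    exact key b (w * u ^ j) hb

end Abstract

/-- a stable irreducible non cyclic subgroup meets a stable subgroup without two independent elements trivially. -/
theorem inf_eq_bot_of_irreducible {G V : Type*} [AddCommGroup V] [SMul G V] (Z W : AddSubgroup V)
    (hZ : ∀ (σ : G), ∀ x ∈ Z, σ • x ∈ Z) (hW : ∀ (σ : G), ∀ x ∈ W, σ • x ∈ W)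
    (hirr : ∀ W' : AddSubgroup V, W' ≤ W → (∀ (σ : G), ∀ x ∈ W', σ • x ∈ W') → W' = ⊥ ∨ W' = W)
    (hcyc : ∀ x : V, W ≠ AddSubgroup.zmultiples x)
    (hZ2 : ∀ x ∈ Z, ∀ y ∈ Z, x ≠ 0 → ∃ j : ℕ, y + j • x = 0) : ∀ x ∈ W, x ∈ Z → x = 0 := by
  have h1 := hirr (W ⊓ Z) inf_le_left fun σ x hx => ⟨hW σ x hx.1, hZ σ x hx.2⟩
  rcases h1 with h1 | h1
  · intro x hxW hxZ
    have : x ∈ W ⊓ Z := ⟨hxW, hxZ⟩
    rw [h1] at this
    exact this
  · exfalso
    have hWZ : W ≤ Z := by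
      rw [← h1]
      exact inf_le_right
    obtain ⟨x, hxW, hx0⟩ : ∃ x ∈ W, x ≠ 0 := by
      by_contra hcon
      push Not at hcon
      apply hcyc 0
      rw [AddSubgroup.zmultiples_zero_eq_bot, eq_bot_iff]
      intro x hx
      exact hcon x hx
    apply hcyc x
    apply le_antisymm
    · intro y hy
      obtain ⟨j, hj⟩ := hZ2 x (hWZ hxW) y (hWZ hy) hx0
      have : y = (-(j : ℤ)) • x := by
        rw [neg_smul, natCast_zsmul]
        exact eq_neg_of_add_eq_zero_left hj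
      rw [this]
      exact AddSubgroup.zsmul_mem_zmultiples x _
    · rw [AddSubgroup.zmultiples_le]
      exact hxW

end Fermat.Agent.S41.Neat
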