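import Mathlib

/-!
# S41 / NEAT : two independent Kummer classes which die in `F'` force `p² ∣ [F' : F]`  (PURE MATHLIB)
-/

set_option autoImplicit false

namespace Fermat.Agent.S41.Neat

open Polynomial IntermediateField

/-- the simple Kummer extension `F(v)`, `v ^ p = u ∉ F ^ p`. -/
theorem Kummer_simple {F F' : Type*} [Field F] [Field F'] [Algebra F F'] {p : ℕ} (hp : p.Prime)
    {ζ : F} (hζ : IsPrimitiveRoot ζ p) {u : F} {v : F'} (hv : v ^ p = algebraMap F F' u)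
    (hu : ∀ b : F, b ^ p ≠ u) :
    Module.finrank F F⟮v⟯ = p ∧ IsGalois F F⟮v⟯ ∧
      ∃ τ : Gal(F⟮v⟯/F), τ (AdjoinSimple.gen F v) = algebraMap F F⟮v⟯ ζ * AdjoinSimple.gen F v := by
  have : NeZero p := ⟨hp.ne_zero⟩
  have H : Irreducible (X ^ p - C u) := X_pow_sub_C_irreducible_of_prime hp hu
  have hζne : (primitiveRoots p F).Nonempty := ⟨ζ, (mem_primitiveRoots hp.pos).mpr hζ⟩
  have hmonic : (X ^ p - C u).Monic := monic_X_pow_sub_C _ hp.ne_zero
  have hroot : aeval v (X ^ p - C u) = 0 := by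
    simp [hv]
  have hint : IsIntegral F v := ⟨_, hmonic, by simpa [aeval_def] using hroot⟩
  have hmin : minpoly F v = X ^ p - C u :=
    (minpoly.eq_of_irreducible_of_monic H hroot hmonic).symm
  have hfd : FiniteDimensional F F⟮v⟯ := adjoin.finiteDimensional hint
  have hrank : Module.finrank F F⟮v⟯ = p := by
    rw [adjoin.finrank hint, hmin, natDegree_X_pow_sub_C]
  have hgen' : (AdjoinSimple.gen F v) ^ p = algebraMap F F⟮v⟯ u := by
    apply Subtype.ext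
    simpa using hv
  have hgen : (AdjoinSimple.gen F v) ^ (Module.finrank F F⟮v⟯) = algebraMap F F⟮v⟯ u := by
    rw [hrank]
    exact hgen'
  have htop : F⟮AdjoinSimple.gen F v⟯ = ⊤ :=
    adjoin_eq_top_of_algebra _ _ (adjoin.powerBasis hint).adjoin_gen_eq_top
  have hsplit : IsSplittingField F F⟮v⟯ (X ^ p - C u) := by
    have := isSplittingField_X_pow_sub_C_of_root_adjoin_eq_top (K := F) (L := F⟮v⟯)
      (by rw [hrank]; exact hζne) hgen htop
    rwa [hrank] at this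
  refine ⟨hrank, isGalois_of_isSplittingField_X_pow_sub_C hζne H _,
    (autEquivZmod H F⟮v⟯ hζ).symm (Multiplicative.ofAdd ((1 : ℕ) : ZMod p)), ?_⟩
  have h1 := autEquivZmod_symm_apply_natCast H F⟮v⟯ hgen' hζ 1
  rw [h1, pow_one, Algebra.smul_def]

/-- Kummer theory, one step: a `p`-th root in `M' = M(a)` of an element `v` of `M`. -/
theorem Kummer_descent {M M' : Type*} [Field M] [Field M'] [Algebra M M'] [IsGalois M M'] {p : ℕ}
    (hp : p.Prime) (hdeg : Module.finrank M M' = p)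
    {ζ : M} (hζ : IsPrimitiveRoot ζ p) {α : M} {a : M'} (ha0 : a ≠ 0)
    (ha : a ^ p = algebraMap M M' α) (τ : Gal(M'/M)) (hτ : τ a = algebraMap M M' ζ * a)
    {v : M} {y : M'} (hy : y ^ p = algebraMap M M' v) :
    ∃ (j : ℕ) (z : M), z ^ p = v * α ^ j := by
  have : NeZero p := ⟨hp.ne_zero⟩
  have : Fact p.Prime := ⟨hp⟩
  have : FiniteDimensional M M' := Module.finite_of_finrank_pos (by rw [hdeg]; exact hp.pos)
  have hζ' : IsPrimitiveRoot (algebraMap M M' ζ) p :=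
    hζ.map_of_injective (algebraMap M M').injective
  rcases eq_or_ne y 0 with rfl | hy0
  · refine ⟨0, 0, ?_⟩
    rw [zero_pow hp.ne_zero] at hy
    have : v = 0 := (algebraMap M M').injective (by rw [← hy, map_zero])
    simp [this, hp.ne_zero]
  have h1 : (τ y / y) ^ p = 1 := by
    rw [div_pow, ← map_pow, hy, AlgEquiv.commutes, div_self]
    rw [← hy]
    exact pow_ne_zero _ hy0
  obtain ⟨k, hk, hξ⟩ := hζ'.eq_pow_of_pow_eq_one h1
  have hτy : τ y = (algebraMap M M' ζ) ^ k * y := by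
    rw [hξ, div_mul_cancel₀ _ hy0]
  obtain ⟨z', hz'⟩ : ∃ z', z' = y * a ^ (p - k) := ⟨_, rfl⟩
  have hfix : τ z' = z' := by
    rw [hz', map_mul, map_pow, hτy, hτ, mul_pow]
    have : (algebraMap M M' ζ) ^ k * (algebraMap M M' ζ) ^ (p - k) = 1 := by
      rw [← pow_add, Nat.add_sub_cancel' hk.le, hζ'.pow_eq_one]
    calc (algebraMap M M' ζ) ^ k * y * ((algebraMap M M' ζ) ^ (p - k) * a ^ (p - k))
        = ((algebraMap M M' ζ) ^ k * (algebraMap M M' ζ) ^ (p - k)) * (y * a ^ (p - k)) := by ring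
      _ = y * a ^ (p - k) := by rw [this, one_mul]
  have hτ1 : τ ≠ 1 := by
    rintro rfl
    have h2 : (algebraMap M M' ζ - 1) * a = 0 := by
      rw [sub_mul, one_mul, ← hτ]; simp
    rcases mul_eq_zero.mp h2 with h3 | h3
    · exact hζ'.ne_one hp.one_lt (sub_eq_zero.mp h3)
    · exact ha0 h3
  have hcard : Nat.card Gal(M'/M) = p := by rw [IsGalois.card_aut_eq_finrank, hdeg]
  have htop := zpowers_eq_top_of_prime_card hcard hτ1
  have hall : ∀ σ : Gal(M'/M), σ z' = z' := by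
    intro σ
    have h2 : Subgroup.zpowers τ ≤ MulAction.stabilizer Gal(M'/M) z' := by
      rw [Subgroup.zpowers_le]
      exact hfix
    have h3 : σ ∈ MulAction.stabilizer Gal(M'/M) z' := h2 (htop ▸ Subgroup.mem_top σ)
    exact h3
  obtain ⟨z, hz⟩ := (IsGalois.mem_range_algebraMap_iff_fixed z').mpr hall
  refine ⟨p - k, z, (algebraMap M M').injective ?_⟩
  rw [map_pow, hz, hz', mul_pow, hy, map_mul, map_pow, ← ha, ← pow_mul, ← pow_mul, mul_comm p]

/-- **(N1), field form.** -/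
theorem Kummer_sq_dvd_finrank {F F' : Type*} [Field F] [Field F'] [Algebra F F'] {p : ℕ}
    (hp : p.Prime) {ζ : F} (hζ : IsPrimitiveRoot ζ p) {u₁ u₂ : F} {v₁ v₂ : F'}
    (h₁ : v₁ ^ p = algebraMap F F' u₁) (h₂ : v₂ ^ p = algebraMap F F' u₂)
    (hu₁ : ∀ b : F, b ^ p ≠ u₁) (hu₂ : ∀ (j : ℕ) (b : F), b ^ p ≠ u₂ * u₁ ^ j) :
    p ^ 2 ∣ Module.finrank F F' := by
  obtain ⟨hrank, hgal, τ, hτ⟩ := Kummer_simple hp hζ h₁ hu₁
  have hgen : (AdjoinSimple.gen F v₁) ^ p = algebraMap F F⟮v₁⟯ u₁ := by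
    apply Subtype.ext
    simpa using h₁
  have hgen0 : AdjoinSimple.gen F v₁ ≠ 0 := by
    intro h0
    rw [h0, zero_pow hp.ne_zero] at hgen
    have : u₁ = 0 := (algebraMap F F⟮v₁⟯).injective (by rw [← hgen, map_zero])
    exact hu₁ 0 (by rw [this, zero_pow hp.ne_zero])
  -- `u₂` is not a `p`-th power in `F(v₁)`
  have hu₂' : ∀ b : F⟮v₁⟯, b ^ p ≠ algebraMap F F⟮v₁⟯ u₂ := by
    intro b hb
    obtain ⟨j, z, hz⟩ := Kummer_descent hp hrank hζ hgen0 hgen τ hτ hb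
    exact hu₂ j z hz
  have hζ' : IsPrimitiveRoot (algebraMap F F⟮v₁⟯ ζ) p :=
    hζ.map_of_injective (algebraMap F F⟮v₁⟯).injective
  have h₂' : v₂ ^ p = algebraMap F⟮v₁⟯ F' (algebraMap F F⟮v₁⟯ u₂) := by
    rw [h₂]
    rfl
  obtain ⟨hrank2, -, -⟩ := Kummer_simple hp hζ' h₂' hu₂'
  have t1 := Module.finrank_mul_finrank F F⟮v₁⟯ F'
  have t2 := Module.finrank_mul_finrank F⟮v₁⟯ (F⟮v₁⟯)⟮v₂⟯ F'
  rw [← t1, ← t2, hrank, hrank2, sq, ← mul_assoc]
  exact dvd_mul_right _ _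

end Fermat.Agent.S41.Neat
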